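import Mathlib

/-!
# Non-Eisenstein lemma: the abstract core

`G` acts on a finite abelian group `V` killed by the odd prime `p`, with more than `p` elements,
and `χ : G →* (ZMod n)ˣ` with `p ∣ n`.  If

* every element of `ker χ` acts unipotently (`(g - 1)² = 0`), and
* every value of `χ` is taken at an element `τ` satisfying a quadratic relation
  `τ² - a τ + l = 0` on `V` with `l ≡ χ(τ) mod n`,
* some `c` has `χ c = -1`,

then `V` is not irreducible.  No determinant is needed.
-/

set_option autoImplicit false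

namespace Fermat.Agent.FrobQbar

section Core

variable {G V : Type*} [Group G] [AddCommGroup V] [DistribMulAction G V]

/-- If `(g - 1)² = 0` on `V` then `g ^ k = 1 + k (g - 1)` on `V`. -/
theorem nec_pow_smul (g : G) (h : ∀ v : V, g • g • v - (2 : ℤ) • g • v + v = 0) (k : ℕ) (v : V) :
    g ^ k • v = v + k • (g • v - v) := by
  induction k with
  | zero => simp
  | succ k ih =>
    have h1 : g • g • v = (2 : ℤ) • g • v - v := by
      have := h v
      rw [← sub_eq_zero, ← this]
      abel
    rw [pow_succ', mul_smul, ih, smul_add, smul_comm g k, smul_sub, h1, succ_nsmul, two_smul]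
    abel_nf

/-- If `(τ - 1)² = 0` on `V` and `g` acts as a power of `τ`, then `(g - 1)² = 0` on `V`. -/
theorem nec_unip_of_pow (τ g : G) (h : ∀ v : V, τ • τ • v - (2 : ℤ) • τ • v + v = 0) (j : ℕ)
    (hg : ∀ v : V, g • v = τ ^ j • v) (v : V) : g • g • v - (2 : ℤ) • g • v + v = 0 := by
  have hN : ∀ w : V, τ • (τ • w - w) - (τ • w - w) = 0 := by
    intro w
    have := h w
    rw [← this, smul_sub, two_smul]
    abel
  have e1 : ∀ w : V, g • w = w + j • (τ • w - w) := fun w => by rw [hg, nec_pow_smul τ h j w]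
  have e2 : g • (τ • v - v) = τ • v - v := by
    rw [e1, hN, smul_zero, add_zero]
  rw [e1 v, smul_add, smul_comm g j, e2, e1 v, two_smul]
  abel

/-- An integer multiple of `p` kills `V`. -/
theorem nec_zsmul_eq_zero {p : ℕ} (hpV : ∀ v : V, p • v = 0) {z : ℤ} (hz : (p : ℤ) ∣ z) (v : V) :
    z • v = 0 := by
  obtain ⟨k, rfl⟩ := hz
  rw [mul_comm, mul_smul, natCast_zsmul, hpV, smul_zero]

/-- An integer prime to `p` acts injectively on `V`. -/
theorem nec_eq_zero_of_zsmul {p : ℕ} (hp : p.Prime) (hpV : ∀ v : V, p • v = 0) {z : ℤ}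
    (hz : ¬ (p : ℤ) ∣ z) {v : V} (hv : z • v = 0) : v = 0 := by
  have hcop : IsCoprime z (p : ℤ) :=
    ((Nat.prime_iff_prime_int.mp hp).coprime_iff_not_dvd.mpr hz).symm
  obtain ⟨s, t, hst⟩ := hcop
  have : ((s * z + t * p : ℤ)) • v = 0 := by
    rw [add_smul, mul_smul, hv, smul_zero, mul_smul, natCast_zsmul, hpV, smul_zero, add_zero]
  rwa [hst, one_smul] at this

/-- A group all of whose elements act with `g ^ p = 1` on the finite `p`-group `V ≠ 0` fixes a
nonzero vector. -/
theorem nec_exists_fixed {p : ℕ} [Fact p.Prime] [Finite V] (hpV : p ∣ Nat.card V)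
    (H : Subgroup G) (hH : ∀ g ∈ H, ∀ v : V, g ^ p • v = v) :
    ∃ v : V, v ≠ 0 ∧ ∀ g ∈ H, g • v = v := by
  classical
  let f : G →* Equiv.Perm V := MulAction.toPermHom G V
  let K : Subgroup (Equiv.Perm V) := H.map f
  have hK : IsPGroup p K := by
    rintro ⟨k, g, hg, rfl⟩
    refine ⟨1, ?_⟩
    apply Subtype.ext
    ext v
    rw [pow_one]
    show ((f g) ^ p) v = v
    rw [← map_pow]
    exact hH g hg v
  have h0 : (0 : V) ∈ MulAction.fixedPoints K V := by
    rintro ⟨k, g, hg, rfl⟩
    show g • (0 : V) = 0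
    exact smul_zero g
  obtain ⟨b, hb, hb0⟩ := hK.exists_fixed_point_of_prime_dvd_card_of_fixed_point V hpV h0
  refine ⟨b, fun h => hb0 h.symm, fun g hg => ?_⟩
  exact hb ⟨f g, g, hg, rfl⟩

/-- **Core of the non-Eisenstein lemma.** -/
theorem nec_core {p n : ℕ} [Fact p.Prime] (hp2 : p ≠ 2) (hpn : p ∣ n) [NeZero n]
    (hpV : ∀ v : V, p • v = 0) [Finite V] (hcard : p < Nat.card V) (hdvd : p ∣ Nat.card V)
    (χ : G →* (ZMod n)ˣ) (c : G) (hc : χ c = -1)
    (h1 : ∀ g : G, χ g = 1 → ∀ v : V, g • g • v - (2 : ℤ) • g • v + v = 0)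
    (h2 : ∀ g : G, ∃ τ : G, χ τ = χ g ∧ ∃ a l : ℤ, (l : ZMod n) = ((χ τ : (ZMod n)ˣ) : ZMod n) ∧
      ∀ v : V, τ • τ • v - a • τ • v + l • v = 0)
    (hirr : ∀ N : AddSubgroup V, (∀ g : G, ∀ v ∈ N, g • v ∈ N) → N = ⊥ ∨ N = ⊤) : False := by
  classical
  have hp : p.Prime := Fact.out
  -- nontriviality
  have hex : ∃ v : V, v ≠ 0 := by
    by_contra hne
    push Not at hne
    have : Subsingleton V := ⟨fun a b => by rw [hne a, hne b]⟩
    have h1' : Nat.card V = 1 := Nat.card_unique
    have := hp.one_lt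
    omega
  -- Step A: `ker χ` acts trivially
  have hker : ∀ g : G, χ g = 1 → ∀ v : V, g • v = v := by
    have hH : ∀ g ∈ χ.ker, ∀ v : V, g ^ p • v = v := by
      intro g hg v
      rw [nec_pow_smul g (h1 g (MonoidHom.mem_ker.mp hg)) p v, hpV, add_zero]
    obtain ⟨v₀, hv₀, hfix⟩ := nec_exists_fixed hdvd χ.ker hH
    let N : AddSubgroup V :=
      { carrier := {v | ∀ g ∈ χ.ker, g • v = v}
        add_mem' := fun {a b} ha hb g hg => by rw [smul_add, ha g hg, hb g hg]
        zero_mem' := fun g _ => smul_zero g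
        neg_mem' := fun {a} ha g hg => by rw [smul_neg, ha g hg] }
    have hN : ∀ g : G, ∀ v ∈ N, g • v ∈ N := by
      intro σ v hv g hg
      have hconj : σ⁻¹ * g * σ ∈ χ.ker := by
        rw [MonoidHom.mem_ker, map_mul, map_mul, map_inv, MonoidHom.mem_ker.mp hg, mul_one,
          inv_mul_cancel]
      have := hv _ hconj
      rw [mul_smul, mul_smul] at this
      have h3 := congrArg (fun w => σ • w) this
      simp only [smul_inv_smul] at h3
      exact h3
    rcases hirr N hN with hbot | htop
    · exfalso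
      have : v₀ ∈ N := hfix
      rw [hbot, AddSubgroup.mem_bot] at this
      exact hv₀ this
    · intro g hg v
      have : v ∈ N := by rw [htop]; exact AddSubgroup.mem_top v
      exact this g (MonoidHom.mem_ker.mpr hg)
  -- Step B
  have hsame : ∀ g h : G, χ g = χ h → ∀ v : V, g • v = h • v := by
    intro g h hgh v
    have : χ (h⁻¹ * g) = 1 := by rw [map_mul, map_inv, hgh, inv_mul_cancel]
    have h3 := hker _ this v
    rw [mul_smul] at h3
    have h4 := congrArg (fun w => h • w) h3
    simp only [smul_inv_smul] at h4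
    exact h4
  -- Step C
  have hcomm : ∀ g h : G, ∀ v : V, g • h • v = h • g • v := by
    intro g h v
    have := hsame (g * h) (h * g) (by rw [map_mul, map_mul, mul_comm]) v
    rwa [mul_smul, mul_smul] at this
  -- Step D: `c` acts as a sign
  have hcc : ∀ v : V, c • c • v = v := by
    intro v
    have : χ (c * c) = 1 := by rw [map_mul, hc]; simp
    have := hker _ this v
    rwa [mul_smul] at this
  have htwo : ∀ v : V, (2 : ℤ) • v = 0 → v = 0 := by
    intro v hv
    refine nec_eq_zero_of_zsmul hp hpV ?_ hv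
    intro h
    have h' : p ∣ 2 := by exact_mod_cast h
    have := (Nat.prime_dvd_prime_iff_eq hp Nat.prime_two).mp h'
    exact hp2 this
  obtain ⟨ε, hε, hcε⟩ : ∃ ε : ℤ, ε * ε = 1 ∧ ∀ v : V, c • v = ε • v := by
    let Vp : AddSubgroup V :=
      { carrier := {v | c • v = v}
        add_mem' := fun {a b} ha hb => by
          show c • (a + b) = a + b
          rw [smul_add, ha, hb]
        zero_mem' := smul_zero c
        neg_mem' := fun {a} ha => by
          show c • (-a) = -a
          rw [smul_neg, ha] }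
    let Vm : AddSubgroup V :=
      { carrier := {v | c • v = -v}
        add_mem' := fun {a b} ha hb => by
          show c • (a + b) = -(a + b)
          rw [smul_add, ha, hb, neg_add]
        zero_mem' := by
          show c • (0 : V) = -0
          rw [smul_zero, neg_zero]
        neg_mem' := fun {a} ha => by
          show c • (-a) = - -a
          rw [smul_neg, ha] }
    have hVp : ∀ g : G, ∀ v ∈ Vp, g • v ∈ Vp := by
      intro g v hv
      show c • g • v = g • v
      rw [hcomm c g v, hv]
    have hVm : ∀ g : G, ∀ v ∈ Vm, g • v ∈ Vm := by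
      intro g v hv
      show c • g • v = -(g • v)
      rw [hcomm c g v, hv, smul_neg]
    rcases hirr Vp hVp with hpbot | hptop
    · rcases hirr Vm hVm with hmbot | hmtop
      · exfalso
        obtain ⟨v, hv⟩ := hex
        have h1' : v + c • v ∈ Vp := by
          show c • (v + c • v) = v + c • v
          rw [smul_add, hcc, add_comm]
        have h2' : v - c • v ∈ Vm := by
          show c • (v - c • v) = -(v - c • v)
          rw [smul_sub, hcc, neg_sub]
        rw [hpbot, AddSubgroup.mem_bot] at h1'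
        rw [hmbot, AddSubgroup.mem_bot] at h2'
        apply hv
        apply htwo
        have : (2 : ℤ) • v = (v + c • v) + (v - c • v) := by
          rw [two_smul]; abel
        rw [this, h1', h2', add_zero]
      · refine ⟨-1, by norm_num, fun v => ?_⟩
        have : v ∈ Vm := by rw [hmtop]; exact AddSubgroup.mem_top v
        rw [neg_smul, one_smul]
        exact this
    · refine ⟨1, by norm_num, fun v => ?_⟩
      have : v ∈ Vp := by rw [hptop]; exact AddSubgroup.mem_top v
      rw [one_smul]
      exact this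
  -- Step E: every element acts as a scalar
  have hscal : ∀ g : G, ∃ m : ℤ, ∀ v : V, g • v = m • v := by
    intro g
    obtain ⟨τ₁, hτ₁, a₁, l₁, hl₁, rel₁⟩ := h2 g
    obtain ⟨τ₂, hτ₂, a₂, l₂, hl₂, rel₂⟩ := h2 (c * g)
    have e1 : ∀ v : V, τ₁ • v = g • v := hsame τ₁ g hτ₁
    have e2 : ∀ v : V, τ₂ • v = ε • g • v := by
      intro v
      rw [hsame τ₂ (c * g) hτ₂ v, mul_smul, hcε]
    have R1 : ∀ v : V, g • g • v - a₁ • g • v + l₁ • v = 0 := by
      intro v
      have := rel₁ v
      rwa [e1, e1] at this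
    have R2 : ∀ v : V, g • g • v - (a₂ * ε) • g • v + l₂ • v = 0 := by
      intro v
      have := rel₂ v
      rw [e2, e2, smul_comm g ε, ← mul_smul ε ε, hε, one_smul, ← mul_smul a₂ ε] at this
      exact this
    have R3 : ∀ v : V, (a₂ * ε - a₁) • g • v = (l₂ - l₁) • v := by
      intro v
      have h3 := R1 v
      have h4 := R2 v
      rw [sub_smul, sub_smul]
      have h5 : g • g • v - a₁ • g • v + l₁ • v - (g • g • v - (a₂ * ε) • g • v + l₂ • v) = 0 := by
        rw [h3, h4, sub_zero]
      rw [← sub_eq_zero]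
      rw [← h5]
      abel
    -- `l₂ - l₁` is prime to `p`
    have hd : ¬ (p : ℤ) ∣ (l₂ - l₁) := by
      intro hdvd'
      have hχ : χ (c * g) = - χ g := by rw [map_mul, hc, neg_one_mul]
      have hl₂' : (l₂ : ZMod n) = - (l₁ : ZMod n) := by
        rw [hl₂, hl₁, hτ₂, hτ₁, hχ, Units.val_neg]
      have hn : ((l₂ - l₁ : ℤ) : ZMod n) = -(2 * (l₁ : ZMod n)) := by
        push_cast
        rw [hl₂']
        ring
      have hcast := congrArg (ZMod.castHom hpn (ZMod p)) hn
      rw [map_intCast, map_neg, map_mul, map_intCast, map_ofNat] at hcast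
      have h0 : ((l₂ - l₁ : ℤ) : ZMod p) = 0 := (ZMod.intCast_zmod_eq_zero_iff_dvd _ _).mpr hdvd'
      rw [h0] at hcast
      have hunit : IsUnit (l₁ : ZMod p) := by
        have hu : IsUnit (l₁ : ZMod n) := by
          rw [hl₁]
          exact (χ τ₁).isUnit
        have := hu.map (ZMod.castHom hpn (ZMod p))
        rwa [map_intCast] at this
      have h2ne : (2 : ZMod p) ≠ 0 := by
        intro h
        have h' : ((2 : ℕ) : ZMod p) = 0 := by exact_mod_cast h
        rw [ZMod.natCast_eq_zero_iff] at h'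
        exact hp2 ((Nat.prime_dvd_prime_iff_eq hp Nat.prime_two).mp h')
      have hprod : (2 : ZMod p) * (l₁ : ZMod p) = 0 := by
        have := hcast
        rw [eq_comm, neg_eq_zero] at this
        exact this
      rcases mul_eq_zero.mp hprod with h | h
      · exact h2ne h
      · exact hunit.ne_zero h
    by_cases hu : (p : ℤ) ∣ (a₂ * ε - a₁)
    · exfalso
      obtain ⟨v, hv⟩ := hex
      apply hv
      apply nec_eq_zero_of_zsmul hp hpV hd
      rw [← R3 v]
      exact nec_zsmul_eq_zero hpV hu _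
    · have hcop : IsCoprime (a₂ * ε - a₁) (p : ℤ) :=
        ((Nat.prime_iff_prime_int.mp hp).coprime_iff_not_dvd.mpr hu).symm
      obtain ⟨s, t, hst⟩ := hcop
      refine ⟨s * (l₂ - l₁), fun v => ?_⟩
      have : g • v = (s * (a₂ * ε - a₁) + t * p) • g • v := by rw [hst, one_smul]
      rw [this, add_smul, mul_smul, R3 v, mul_smul t, natCast_zsmul, hpV, smul_zero, add_zero,
        mul_smul]
  -- Step F
  obtain ⟨v₀, hv₀⟩ := hex
  have hstab : ∀ g : G, ∀ v ∈ AddSubgroup.zmultiples v₀, g • v ∈ AddSubgroup.zmultiples v₀ := by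
    intro g v hv
    obtain ⟨m, hm⟩ := hscal g
    rw [hm v]
    exact AddSubgroup.zsmul_mem _ hv m
  rcases hirr _ hstab with hbot | htop
  · have : v₀ ∈ AddSubgroup.zmultiples v₀ := AddSubgroup.mem_zmultiples v₀
    rw [hbot, AddSubgroup.mem_bot] at this
    exact hv₀ this
  · have h3 : Nat.card (AddSubgroup.zmultiples v₀) = Nat.card V := by
      rw [htop]
      exact AddSubgroup.card_top
    rw [Nat.card_zmultiples] at h3
    have h4 : addOrderOf v₀ ∣ p := addOrderOf_dvd_of_nsmul_eq_zero (hpV v₀)
    have h5 := Nat.le_of_dvd hp.pos h4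
    omega

end Core

end Fermat.Agent.FrobQbar
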