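import Mathlib
import Fermat.Prelude.Def_FLTPrelim_GaloisRep
import Fermat.Prelude.Def_FLTPrelim_Modularity
import Fermat.Prelude.Def_FLTPrelim_Ramification
import Fermat.Prelude.Def_EllipticCurve_FrobeniusTrace
import Fermat.Agent.Lib.Cyclo.ModCharGlobal
import Fermat.Agent.Lib.Frobenius.Exists
import Fermat.Agent.Lib.FrobDensity.Main
import Fermat.Agent.Lib.Torsion.Card
import Fermat.Agent.S13.OpenStab
import Fermat.Agent.Lib.FrobQbar.NonEisCore

/-!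
# The non-Eisenstein lemma for elliptic curves over `ℚ`

* `FrobRelAt E W n` : the relation `σ² - a_ℓ σ + ℓ = 0` on `E[n](ℚ̄)` for every Frobenius element
  `σ` at a good prime `ℓ ≥ 5` not dividing `n` (`a_ℓ = W.apOfModel ℓ`).
* `nonEisenstein` : if `E[p]` is irreducible (`p` odd) then for every `M ≥ 1` and every finite set
  `B` there is a good prime `ℓ ∉ B`, `ℓ ≡ 1 mod M`, with `a_ℓ ≢ ℓ + 1 mod p`.
-/

set_option autoImplicit false

namespace Fermat.Agent.FrobQbar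

open WeierstrassCurve WeierstrassCurve.Affine WeierstrassCurve.Affine.Point

local notation "Qb" => AlgebraicClosure ℚ
local notation "GQ" => (AlgebraicClosure ℚ ≃ₐ[ℚ] AlgebraicClosure ℚ)

/-- **(Br)** the Frobenius relation on `E[n](ℚ̄)`. -/
def FrobRelAt (E : WeierstrassCurve ℚ) (W : WeierstrassCurve ℤ) (n : ℕ) : Prop :=
  ∀ ℓ : ℕ, ℓ.Prime → 5 ≤ ℓ → ¬ ℓ ∣ n → W.IsGoodPrimeFor ℓ →
    ∀ A : ValuationSubring Qb, A.LiesOverPrime ℓ → ∀ σ : GQ, A.IsFrobeniusAt σ ℓ →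
      ∀ P : (E⁄Qb).Point, (n : ℤ) • P = 0 →
        σ • σ • P - W.apOfModel ℓ • σ • P + (ℓ : ℤ) • P = 0

section Basic

variable {E : WeierstrassCurve ℚ} {p : ℕ}

theorem ne_nsmul_eq_zero (v : Submodule.torsionBy ℤ (E⁄Qb).Point p) : p • v = 0 := by
  apply Subtype.ext
  have := (Submodule.mem_torsionBy_iff _ _).mp v.2
  rw [ZeroMemClass.coe_zero, ← this, natCast_zsmul]
  exact AddSubmonoidClass.coe_nsmul v p

theorem ne_coe_smul (σ : GQ) (v : Submodule.torsionBy ℤ (E⁄Qb).Point p) :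
    ((σ • v : Submodule.torsionBy ℤ (E⁄Qb).Point p) : (E⁄Qb).Point) =
      σ • (v : (E⁄Qb).Point) := rfl

/-- The relation (Br), read on the torsion submodule. -/
theorem ne_rel_torsion {W : WeierstrassCurve ℤ} (hBr : FrobRelAt E W p)
    {ℓ : ℕ} (hℓ : ℓ.Prime) (h5 : 5 ≤ ℓ) (hℓp : ¬ ℓ ∣ p) (hgood : W.IsGoodPrimeFor ℓ)
    (A : ValuationSubring Qb) (hA : A.LiesOverPrime ℓ) (σ : GQ) (hσ : A.IsFrobeniusAt σ ℓ)
    (v : Submodule.torsionBy ℤ (E⁄Qb).Point p) :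
    σ • σ • v - W.apOfModel ℓ • σ • v + (ℓ : ℤ) • v = 0 := by
  apply Subtype.ext
  have h := hBr ℓ hℓ h5 hℓp hgood A hA σ hσ (v : (E⁄Qb).Point)
    ((Submodule.mem_torsionBy_iff _ _).mp v.2)
  rw [Submodule.coe_add, Submodule.coe_sub, Submodule.coe_smul, Submodule.coe_smul,
    ne_coe_smul, ne_coe_smul, ZeroMemClass.coe_zero]
  exact h

/-- The kernel of the action on the finite group `E[p]`, intersected with the kernel of the
cyclotomic character mod `n`. -/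
noncomputable def neU (E : WeierstrassCurve ℚ) (p n : ℕ) [NeZero n] : Subgroup GQ where
  carrier := {σ | Cyclo.modChar n σ = 1 ∧
    ∀ v : Submodule.torsionBy ℤ (E⁄Qb).Point p, σ • v = v}
  mul_mem' := by
    rintro a b ⟨ha, ha'⟩ ⟨hb, hb'⟩
    refine ⟨by rw [map_mul, ha, hb, one_mul], fun v => ?_⟩
    rw [mul_smul, hb', ha']
  one_mem' := ⟨map_one _, fun v => one_smul _ v⟩
  inv_mem' := by
    rintro a ⟨ha, ha'⟩
    refine ⟨by rw [map_inv, ha, inv_one], fun v => ?_⟩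
    conv_lhs => rw [← ha' v]
    rw [inv_smul_smul]

theorem mem_neU {n : ℕ} [NeZero n] {σ : GQ} :
    σ ∈ neU E p n ↔ Cyclo.modChar n σ = 1 ∧
      ∀ v : Submodule.torsionBy ℤ (E⁄Qb).Point p, σ • v = v := Iff.rfl

instance neU_normal {n : ℕ} [NeZero n] : (neU E p n).Normal := by
  constructor
  rintro a ⟨ha, ha'⟩ g
  refine ⟨by rw [map_mul, map_mul, ha, mul_one, map_inv, mul_inv_cancel], fun v => ?_⟩
  rw [mul_smul, mul_smul, ha', smul_inv_smul]

theorem neU_isOpen {n : ℕ} [NeZero n]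
    (hfin : Finite (Submodule.torsionBy ℤ (E⁄Qb).Point p)) :
    IsOpen ((neU E p n : Subgroup GQ) : Set GQ) := by
  obtain ⟨L, hLfd, -, hL⟩ := Cyclo.modChar_finiteLevel n
  have h1 : IsOpen ((L.fixingSubgroup : Subgroup GQ) : Set GQ) :=
    IntermediateField.fixingSubgroup_isOpen L
  have h2 : IsOpen (⋂ x : Submodule.torsionBy ℤ (E⁄Qb).Point p,
      {σ : GQ | σ • x = x}) :=
    isOpen_iInter_of_finite fun x => S13Open.isOpen_stabilizer_torsion E p x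
  refine Subgroup.isOpen_of_mem_nhds _ (g := 1) ?_
  refine Filter.mem_of_superset ((h1.inter h2).mem_nhds ⟨?_, ?_⟩) ?_
  · exact Subgroup.one_mem _
  · simp only [Set.mem_iInter, Set.mem_ofPred_eq]
    intro x
    exact one_smul _ _
  · rintro σ ⟨hσ1, hσ2⟩
    simp only [Set.mem_iInter, Set.mem_ofPred_eq] at hσ2
    refine ⟨hL σ fun x hx => ?_, hσ2⟩
    exact (IntermediateField.mem_fixingSubgroup_iff L σ).mp hσ1 x hx

end Basic

section Main

variable {E : WeierstrassCurve ℚ} {p : ℕ}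

/-- The finite set of primes to avoid: `B`, the primes `< 5`, the primes dividing `n` and the bad
primes of `W`. -/
noncomputable def neBad (W : WeierstrassCurve ℤ) (n : ℕ) (B : Finset ℕ) : Finset ℕ :=
  B ∪ Finset.range 5 ∪ n.primeFactors ∪ W.Δ.natAbs.primeFactors

theorem ne_of_not_mem_neBad {W : WeierstrassCurve ℤ} (hΔ : W.Δ ≠ 0) {n : ℕ} (hn : n ≠ 0)
    {B : Finset ℕ} {ℓ : ℕ} (hℓ : ℓ.Prime) (h : ℓ ∉ neBad W n B) :
    ℓ ∉ B ∧ 5 ≤ ℓ ∧ ¬ ℓ ∣ n ∧ W.IsGoodPrimeFor ℓ := by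
  simp only [neBad, Finset.mem_union, Finset.mem_range, Nat.mem_primeFactors, not_or, not_and,
    not_lt] at h
  obtain ⟨⟨⟨h1, h2⟩, h3⟩, h4⟩ := h
  refine ⟨h1, h2, fun hd => h3 hℓ hd hn, fun hd => ?_⟩
  have h5 : ℓ ∣ W.Δ.natAbs := Int.natCast_dvd.mp hd
  exact h4 hℓ h5 (Int.natAbs_ne_zero.mpr hΔ)

/-- **The non-Eisenstein lemma.**  If `E[p]` is irreducible (`p` odd) and the Frobenius relation
(Br) holds on `E[p]`, then for every `M ≥ 1` and every finite set `B` of primes there is a good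
prime `ℓ ∉ B`, `ℓ ≡ 1 mod M`, such that `a_ℓ ≢ ℓ + 1 mod p`. -/
theorem nonEisenstein (E : WeierstrassCurve ℚ) [E.IsElliptic] (W : WeierstrassCurve ℤ)
    (hΔ : W.Δ ≠ 0) {p : ℕ} (hp : p.Prime) (hp2 : p ≠ 2) (hBr : FrobRelAt E W p)
    (hirr : GaloisRepIsIrreducible (K := AlgebraicClosure ℚ) ℚ E p)
    (M : ℕ) (hM : 0 < M) (B : Finset ℕ) :
    ∃ ℓ : ℕ, ℓ.Prime ∧ W.IsGoodPrimeFor ℓ ∧ ℓ ∉ B ∧ ℓ ≡ 1 [MOD M] ∧
      ¬ (p : ℤ) ∣ W.apOfModel ℓ - ((ℓ : ℤ) + 1) := by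
  classical
  by_contra hne
  push Not at hne
  have : Fact p.Prime := ⟨hp⟩
  set n : ℕ := M * p with hn
  have hn0 : n ≠ 0 := Nat.mul_ne_zero hM.ne' hp.ne_zero
  have : NeZero n := ⟨hn0⟩
  have hpn : p ∣ n := Dvd.intro_left M rfl
  have hMn : M ∣ n := Dvd.intro p rfl
  -- the curve over `ℚ̄`
  have hΔE : (E⁄Qb).Δ ≠ 0 := by
    have : (E⁄Qb).Δ = algebraMap ℚ Qb E.Δ := WeierstrassCurve.map_Δ E (algebraMap ℚ Qb)
    rw [this]
    exact (map_ne_zero _).mpr E.isUnit_Δ.ne_zero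
  have hcardV : Nat.card (Submodule.torsionBy ℤ (E⁄Qb).Point p) = p ^ 2 :=
    Torsion.card_torsionBy hΔE hp.one_lt.le
  have hfin : Finite (Submodule.torsionBy ℤ (E⁄Qb).Point p) :=
    Torsion.finite_torsionBy hΔE hp.one_lt.le
  have hUopen := neU_isOpen (E := E) (p := p) (n := n) hfin
  set S : Finset ℕ := neBad W n B with hS
  -- congruences for primes `≡ 1 mod n`
  have hkey : ∀ ℓ : ℕ, ℓ.Prime → ℓ ∉ S → (ℓ : ZMod n) = 1 →
      ∀ A : ValuationSubring Qb, A.LiesOverPrime ℓ → ∀ σ : GQ, A.IsFrobeniusAt σ ℓ →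
      ∀ v : Submodule.torsionBy ℤ (E⁄Qb).Point p, σ • σ • v - (2 : ℤ) • σ • v + v = 0 := by
    intro ℓ hℓ hℓS hℓ1 A hA σ hσ v
    obtain ⟨hℓB, h5, hℓn, hgood⟩ := ne_of_not_mem_neBad hΔ hn0 hℓ hℓS
    have hℓp : ¬ ℓ ∣ p := fun h => hℓn (h.trans hpn)
    have hmodn : ℓ ≡ 1 [MOD n] := by
      rw [← ZMod.natCast_eq_natCast_iff, hℓ1, Nat.cast_one]
    have hmodM : ℓ ≡ 1 [MOD M] := hmodn.of_dvd hMn
    have hmodp : ℓ ≡ 1 [MOD p] := hmodn.of_dvd hpn
    have ha := hne ℓ hℓ hgood hℓB hmodM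
    have hℓ1' : (p : ℤ) ∣ (ℓ : ℤ) - 1 := by
      have := (Nat.modEq_iff_dvd.mp hmodp.symm)
      simpa using this
    have ha2 : (p : ℤ) ∣ W.apOfModel ℓ - 2 := by
      have : W.apOfModel ℓ - 2 = (W.apOfModel ℓ - ((ℓ : ℤ) + 1)) + ((ℓ : ℤ) - 1) := by ring
      rw [this]
      exact dvd_add ha hℓ1'
    have hrel := ne_rel_torsion hBr hℓ h5 hℓp hgood A hA σ hσ v
    have e1 : W.apOfModel ℓ • σ • v = (2 : ℤ) • σ • v := by
      have := nec_zsmul_eq_zero (V := Submodule.torsionBy ℤ (E⁄Qb).Point p)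
        (fun w => ne_nsmul_eq_zero w) ha2 (σ • v)
      rw [sub_smul, sub_eq_zero] at this
      exact this
    have e2 : (ℓ : ℤ) • v = v := by
      have := nec_zsmul_eq_zero (V := Submodule.torsionBy ℤ (E⁄Qb).Point p)
        (fun w => ne_nsmul_eq_zero w) hℓ1' v
      rw [sub_smul, one_smul, sub_eq_zero] at this
      exact this
    rw [e1, e2] at hrel
    exact hrel
  refine nec_core (G := GQ) (V := Submodule.torsionBy ℤ (E⁄Qb).Point p) (p := p) (n := n)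
    hp2 hpn (fun w => ne_nsmul_eq_zero w) ?_ ?_ (Cyclo.modChar n) complexConjugation
    (Cyclo.modChar_complexConjugation n) ?_ ?_ ?_
  · rw [hcardV]
    have := hp.one_lt
    nlinarith
  · rw [hcardV]
    exact Dvd.intro_left (p ^ 1) (by ring)
  · -- h1 : the kernel of the cyclotomic character acts unipotently
    intro g hg v
    obtain ⟨ℓ, A, τ, k, j, hℓ, hℓS, hA, hτ, hk, hj⟩ :=
      FrobDensity.frobenius_density_open (neU E p n) hUopen g S
    obtain ⟨hℓB, h5, hℓn, hgood⟩ := ne_of_not_mem_neBad hΔ hn0 hℓ hℓS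
    have hχτ : Cyclo.modChar n τ = 1 := by
      have h1 := (mem_neU.mp hk).1
      rw [map_mul, map_inv, map_pow, hg, one_pow, mul_one, inv_eq_one] at h1
      exact h1
    have hℓ1 : (ℓ : ZMod n) = 1 := by
      rw [← Cyclo.modChar_frobenius n hℓ hℓn A hA τ hτ, hχτ, Units.val_one]
    have hgτ : ∀ w : Submodule.torsionBy ℤ (E⁄Qb).Point p, g • w = τ ^ j • w := by
      intro w
      have h1 := (mem_neU.mp hj).2 w
      rw [mul_smul] at h1
      have h2 := congrArg (fun x => g • x) h1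
      simp only [smul_inv_smul] at h2
      exact h2.symm
    exact nec_unip_of_pow τ g (hkey ℓ hℓ hℓS hℓ1 A hA τ hτ) j hgτ v
  · -- h2 : every value of the character is taken at a Frobenius element
    intro g
    obtain ⟨ℓ, hℓgt, hℓ, hℓχ⟩ := Nat.forall_exists_prime_gt_and_eq_mod
      (q := n) (a := ((Cyclo.modChar n g : (ZMod n)ˣ) : ZMod n)) (Cyclo.modChar n g).isUnit
      (S.sup id)
    have hℓS : ℓ ∉ S := by
      intro h
      have : ℓ ≤ S.sup id := Finset.le_sup (f := id) h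
      omega
    obtain ⟨hℓB, h5, hℓn, hgood⟩ := ne_of_not_mem_neBad hΔ hn0 hℓ hℓS
    have hℓp : ¬ ℓ ∣ p := fun h => hℓn (h.trans hpn)
    obtain ⟨A, τ, hA, hτ⟩ := FrobExists.exists_frobenius ℓ hℓ
    have hχτ : ((Cyclo.modChar n τ : (ZMod n)ˣ) : ZMod n) = (ℓ : ZMod n) :=
      Cyclo.modChar_frobenius n hℓ hℓn A hA τ hτ
    refine ⟨τ, Units.ext (by rw [hχτ, hℓχ]), W.apOfModel ℓ, (ℓ : ℤ), ?_, fun v => ?_⟩
    · rw [hχτ]; simp
    · exact ne_rel_torsion hBr hℓ h5 hℓp hgood A hA τ hτ v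
  · -- irreducibility
    intro N hN
    have h := hirr.2 (AddSubgroup.toZModSubmodule p N) (fun σ x hx => hN σ x hx)
    rcases h with h | h
    · left
      have := congrArg (AddSubgroup.toZModSubmodule p).symm h
      simpa using this
    · right
      have := congrArg (AddSubgroup.toZModSubmodule p).symm h
      simpa using this

/-- The discriminant of an integral model of an elliptic curve is nonzero. -/
theorem ne_Δ_ne_zero (E : WeierstrassCurve ℚ) [E.IsElliptic] {W : WeierstrassCurve ℤ}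
    (hW : W.IsIntegralModelOf E) : W.Δ ≠ 0 := by
  obtain ⟨C, hC⟩ := hW
  intro h
  have h1 : (W.map (Int.castRingHom ℚ)).Δ = 0 := by
    rw [WeierstrassCurve.map_Δ, h, _root_.map_zero]
  rw [← hC, WeierstrassCurve.variableChange_Δ] at h1
  have h2 : E.Δ ≠ 0 := E.isUnit_Δ.ne_zero
  have h3 : ((C.u⁻¹ : ℚˣ) : ℚ) ^ 12 ≠ 0 := pow_ne_zero _ (Units.ne_zero _)
  exact (mul_ne_zero h3 h2) h1

/-- The non-Eisenstein lemma for an integral model. -/
theorem nonEisenstein_of_model (E : WeierstrassCurve ℚ) [E.IsElliptic] {W : WeierstrassCurve ℤ}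
    (hW : W.IsIntegralModelOf E) {p : ℕ} (hp : p.Prime) (hp2 : p ≠ 2) (hBr : FrobRelAt E W p)
    (hirr : GaloisRepIsIrreducible (K := AlgebraicClosure ℚ) ℚ E p)
    (M : ℕ) (hM : 0 < M) (B : Finset ℕ) :
    ∃ ℓ : ℕ, ℓ.Prime ∧ W.IsGoodPrimeFor ℓ ∧ ℓ ∉ B ∧ ℓ ≡ 1 [MOD M] ∧
      ¬ (p : ℤ) ∣ W.apOfModel ℓ - ((ℓ : ℤ) + 1) :=
  nonEisenstein E W (ne_Δ_ne_zero E hW) hp hp2 hBr hirr M hM B

end Main

end Fermat.Agent.FrobQbar
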