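import Mathlib
import Fermat.Agent.Lib.FrobQbar.NonEis
import Fermat.Agent.Lib.FrobTrace.CharEqGen
import Fermat.Agent.Lib.FrobTrace.Residue
import Fermat.Agent.Lib.VarChange.BaseChange

/-!
# The Frobenius relation (Br) on `E[n](ℚ̄)`

* `ReductionStatement W` : existence of the reduction homomorphism at every good prime
  (the statement of `FrobTrace.exists_reduction`).
* `frobRelAt_model_of` : (Br) for the curve `W_ℚ` of an integral Weierstrass equation `W`.
* `frobRelAt_of` : (Br) for every elliptic curve `E / ℚ` with integral model `W`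
  (transport along the change of variables).
-/

set_option autoImplicit false

namespace Fermat.Agent.FrobQbar

open WeierstrassCurve WeierstrassCurve.Affine WeierstrassCurve.Affine.Point

open Fermat.Agent.S52 (frobPt)

local notation "Qb" => AlgebraicClosure ℚ
local notation "GQ" => (AlgebraicClosure ℚ ≃ₐ[ℚ] AlgebraicClosure ℚ)

/-- Existence of the reduction homomorphism at the good primes of `W`. -/
def ReductionStatement (W : WeierstrassCurve ℤ) : Prop :=
  ∀ (ℓ : ℕ) [Fact ℓ.Prime], W.IsGoodPrimeFor ℓ →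
    ∀ (A : ValuationSubring Qb), A.LiesOverPrime ℓ →
    ∀ [Algebra (ZMod ℓ) (IsLocalRing.ResidueField A)] [DecidableEq (IsLocalRing.ResidueField A)],
    ∃ red : ((W.map (Int.castRingHom ℚ))⁄Qb).Point →+
        ((W.reductionMod ℓ)⁄(IsLocalRing.ResidueField A)).Point,
      (∀ (n : ℕ), ¬ ℓ ∣ n → ∀ P, n • P = 0 → red P = 0 → P = 0) ∧
      (∀ τ : GQ, A.IsFrobeniusAt τ ℓ →
        ∀ P, red (τ • P) = frobPt (W.reductionMod ℓ) (IsLocalRing.ResidueField A) (red P))

/-- (Br) for the rational curve of an integral Weierstrass equation. -/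
theorem frobRelAt_model_of (W : WeierstrassCurve ℤ) (hred : ReductionStatement W) (n : ℕ) :
    FrobRelAt (W.map (Int.castRingHom ℚ)) W n := by
  intro ℓ hℓ h5 hℓn hgood A hA σ hσ P hP
  let _ : DecidableEq (IsLocalRing.ResidueField A) := Classical.decEq _
  have : Fact ℓ.Prime := ⟨hℓ⟩
  have : CharP (IsLocalRing.ResidueField A) ℓ := FrobTrace.charP_residueField A hA
  let _ : Algebra (ZMod ℓ) (IsLocalRing.ResidueField A) := ZMod.algebra _ ℓ
  have : IsAlgClosed (IsLocalRing.ResidueField A) := FrobTrace.isAlgClosed_residueField A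
  have hΔℓ : (W.reductionMod ℓ).Δ ≠ 0 := by
    change (W.map (Int.castRingHom (ZMod ℓ))).Δ ≠ 0
    rw [WeierstrassCurve.map_Δ]
    intro h
    apply hgood
    exact (ZMod.intCast_zmod_eq_zero_iff_dvd W.Δ ℓ).mp (by simpa using h)
  obtain ⟨red, hinj, hfrob⟩ := hred ℓ hgood A hA
  have hz : ∀ Q : ((W.map (Int.castRingHom ℚ))⁄Qb).Point, (n : ℤ) • Q = 0 →
      (n : ℤ) • (σ • Q) = 0 := by
    intro Q hQ
    rw [← algEquiv_smul_zsmul, hQ]
    exact smul_zero (A := ((W.map (Int.castRingHom ℚ))⁄Qb).Point) σ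
  have h1 : (n : ℤ) • (σ • P) = 0 := hz P hP
  have h2 : (n : ℤ) • (σ • σ • P) = 0 := hz _ h1
  apply hinj n hℓn
  · rw [← natCast_zsmul, zsmul_add, zsmul_sub, h2, zsmul_comm, h1, zsmul_comm, hP,
      zsmul_zero, zsmul_zero, sub_zero, add_zero]
  · rw [map_add, map_sub, map_zsmul, map_zsmul, hfrob σ hσ, hfrob σ hσ]
    exact FrobTrace.frobCharEq_gen h5 (W.reductionMod ℓ) hΔℓ _ (red P)

/-- (Br) for an elliptic curve over `ℚ` with integral model `W`. -/
theorem frobRelAt_of (E : WeierstrassCurve ℚ) {W : WeierstrassCurve ℤ}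
    (hW : W.IsIntegralModelOf E) (hred : ReductionStatement W) (n : ℕ) : FrobRelAt E W n := by
  obtain ⟨C, hC⟩ := hW
  intro ℓ hℓ h5 hℓn hgood A hA σ hσ P hP
  have hψσ : ∀ Q : (E⁄Qb).Point,
      VarChange.vcHomBC (K := Qb) C hC (σ • Q) = σ • VarChange.vcHomBC (K := Qb) C hC Q :=
    fun Q => VarChange.vcHomBC_map C hC σ.toAlgHom Q
  apply VarChange.vcHomBC_injective (K := Qb) C hC
  rw [_root_.map_zero, map_add, map_sub, map_zsmul, map_zsmul, hψσ, hψσ]
  refine frobRelAt_model_of W hred n ℓ hℓ h5 hℓn hgood A hA σ hσ _ ?_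
  rw [← map_zsmul, hP, _root_.map_zero]

end Fermat.Agent.FrobQbar
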