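import Mathlib
import Fermat.Agent.Lib.FrobQbar.Bridge
import Fermat.Agent.Lib.FrobTrace.EllRed

/-!
# The Frobenius relation on `E[n](ℚ̄)` and the non-Eisenstein lemma, unconditionally

* `reductionStatement W` : the reduction homomorphisms exist (`FrobTrace.exists_reduction`).
* `frobRelAt E hW n` : `σ² - a_ℓ σ + ℓ = 0` on `E[n](ℚ̄)` for every Frobenius element `σ` at a good
  prime `ℓ ≥ 5`, `ℓ ∤ n`.
* `nonEisenstein_final` : if `E[p]` is irreducible (`p` odd), then for every modulus `M ≥ 1` and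
  finite set `B` there is a good prime `ℓ ∉ B`, `ℓ ≡ 1 mod M`, with `a_ℓ ≢ ℓ + 1 mod p`.
-/

set_option autoImplicit false

namespace Fermat.Agent.FrobQbar

open WeierstrassCurve WeierstrassCurve.Affine WeierstrassCurve.Affine.Point

/-- The reduction homomorphisms at the good primes of `W` exist. -/
theorem reductionStatement (W : WeierstrassCurve ℤ) : ReductionStatement W :=
  fun _ _ hgood A hA _ _ => FrobTrace.exists_reduction W hgood A hA

/-- **(Br)**, unconditionally. -/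
theorem frobRelAt (E : WeierstrassCurve ℚ) {W : WeierstrassCurve ℤ}
    (hW : W.IsIntegralModelOf E) (n : ℕ) : FrobRelAt E W n :=
  frobRelAt_of E hW (reductionStatement W) n

/-- **The non-Eisenstein lemma**, unconditionally. -/
theorem nonEisenstein_final (E : WeierstrassCurve ℚ) [E.IsElliptic] {W : WeierstrassCurve ℤ}
    (hW : W.IsIntegralModelOf E) {p : ℕ} (hp : p.Prime) (hp2 : p ≠ 2)
    (hirr : GaloisRepIsIrreducible (K := AlgebraicClosure ℚ) ℚ E p)
    (M : ℕ) (hM : 0 < M) (B : Finset ℕ) :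
    ∃ ℓ : ℕ, ℓ.Prime ∧ W.IsGoodPrimeFor ℓ ∧ ℓ ∉ B ∧ ℓ ≡ 1 [MOD M] ∧
      ¬ (p : ℤ) ∣ W.apOfModel ℓ - ((ℓ : ℤ) + 1) :=
  nonEisenstein_of_model E hW hp hp2 (frobRelAt E hW p) hirr M hM B

end Fermat.Agent.FrobQbar
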